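/-
LR / node [ES], entry side (ruling (R1)): a normalized eigenform `f ∈ S₂(Γ₀(N))` gives a nonzero
class `ψ ∈ Hom(H(N), ℂ)` which is a common eigenvector of (precomposition with) the Hecke
operators `T_H ℓ`, `ℓ ∤ N` prime, with eigenvalues `a_ℓ(f)`.

* `lres_entry_pair` : the same for any common eigenvector `f ≠ 0` of the `T_ℓ`;
* `lres_entry` : the statement [TOP] consumes.
Prefix `lres_entry`.
-/
import Mathlib
import Fermat.Prelude.Def_FLTPrelim_ModularRep
import Fermat.Agent.JT3.T2.Faithful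
import Fermat.Agent.JT3.Pack.Res.Eigenchar

set_option autoImplicit false
set_option linter.unusedSectionVars false
set_option linter.unusedVariables false

noncomputable section

open CongruenceSubgroup ModularCurve ModularCurve.Period ModularFormClass
open Fermat.Agent.S21 Fermat.Agent.JT3
open scoped MatrixGroups

namespace Fermat.Agent.LR

variable {N : ℕ} [NeZero N]

/-- a nonzero common eigenvector of the `T_ℓ` on `S₂(Γ₀(N))` gives a nonzero common eigenvector of
the `T_H ℓ` on `Hom(H(N), ℂ)` with the same eigenvalues -/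
theorem lres_entry_pair (f : CuspForm (Gamma0 N) 2) (hf0 : f ≠ 0) (θ : ℕ → ℂ)
    (hθ : ∀ (l : ℕ) (hl : l.Prime) (hlN : ¬ l ∣ N), CuspForm.heckeTLin 2 hl hlN f = θ l • f) :
    ∃ ψ : gh_H N →+ ℂ, ψ ≠ 0 ∧ ψ.comp (gh_mk N) = periodHomPair N (f, 0) ∧
      ∀ (l : ℕ) (hl : l.Prime) (hlN : ¬ l ∣ N),
        ψ.comp (t2f_TH N l).toAddMonoidHom = θ l • ψ := by
  obtain ⟨ψ, hψ⟩ := t2f_exists_hom f (0 : CuspForm (Gamma0 N) 2)
  refine ⟨ψ, ?_, hψ, ?_⟩
  · rintro rfl
    apply hf0
    have h0 : periodHomPair N (f, 0) = periodHomPair N (0, 0) := by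
      rw [← hψ, ← Prod.zero_eq_mk, map_zero]
      rfl
    exact (t2f_pair_injective h0).1
  · intro l hl hlN
    have h1 := t2f_compat_TH hl hlN ψ f 0 hψ
    rw [hθ l hl hlN, map_zero] at h1
    have h2 : ((θ l • f, (0 : CuspForm (Gamma0 N) 2)) : _ × _) = θ l • (f, 0) := by
      rw [Prod.smul_mk, smul_zero]
    rw [h2, map_smul, ← hψ] at h1
    apply gh_hom_ext
    intro x
    exact DFunLike.congr_fun h1 x

/-- **[ES], entry side**: the statement [TOP] consumes -/
theorem lres_entry (f : CuspForm (Gamma0 N) 2) (hf : f.IsNormalizedEigenform) :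
    ∃ ψ : gh_H N →+ ℂ, ψ ≠ 0 ∧ ∀ (l : ℕ) (hl : l.Prime) (hlN : ¬ l ∣ N),
      ψ.comp (t2f_TH N l).toAddMonoidHom = qCoeff f l • ψ := by
  obtain ⟨ψ, hne, -, h⟩ := lres_entry_pair f hf.ne_zero (fun l => qCoeff f l)
    (fun l hl hlN => prs_heckeT_eigen hf hl hlN)
  exact ⟨ψ, hne, h⟩

end Fermat.Agent.LR
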