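/-
LR / node [ES], part (i): the involution `ψ ↦ ψ ∘ (γ ↦ JγJ⁻¹)`, `J = diag(1, -1)` (the prelude's
`charInvolution`) commutes with the four maps `A^*`, `B^*`, `A_*`, `B_*` of `LR/MTX/Level.lean`.

Abstract part: if an endomorphism `J` of `G` and a permutation `ν` of `X` satisfy
`(ν x) ⋆ J g = ν (x ⋆ g)` and `ν x₀ = x₀`, then `J` preserves `Stab(x₀)` and the transfer satisfies
`cor (φ ∘ J|Stab) = (cor φ) ∘ J` (`lresi_cor_J`): `J (r x)` is another representative of `ν x`, and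
the correction terms cancel in the sum because `x ↦ x ⋆ g` is a permutation.

Concrete part: `J = jConjGamma0 N`, `ν = (x ↦ -x)` on `ℙ¹(𝔽_q)` (`t2i_act_jConj`), base points `∞`
and `0`; `lresi_corA`, `lresi_corB`, `lresi_resA`, `lresi_resB`.
Prefix `lresi_`.
-/
import Mathlib
import Fermat.Prelude.Def_ModularCurve_PeriodHomPair
import Fermat.Agent.JT3.T2.Involution
import Fermat.Agent.LR.MTX.Level

set_option autoImplicit false

noncomputable section

open CongruenceSubgroup Matrix.SpecialLinearGroup ModularCurve.Period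
open scoped MatrixGroups OnePoint
open Fermat.Agent.JT3

namespace Fermat.Agent.LR

/-! ### Abstract part -/

section abs

variable {G : Type*} {X : Type*} {A : Type*} [Group G] [AddCommGroup A] (D : lrt_Data G X)
  (J : G →* G) (ν : Equiv.Perm X) (hact : ∀ g x, D.act (J g) (ν x) = ν (D.act g x))
  (x₀ : X) (hfix : ν x₀ = x₀)

/-- `J` preserves the stabiliser of a `ν`-fixed base point -/
def lresi_Jst : lrt_stab D x₀ →* lrt_stab D x₀ :=
  (J.comp (lrt_stab D x₀).subtype).codRestrict _ fun g => by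
    show D.act (J (g : G)) x₀ = x₀
    have h := hact (g : G) x₀
    rw [hfix, (show D.act (g : G) x₀ = x₀ from g.2), hfix] at h
    exact h

theorem lresi_Jst_coe (g : lrt_stab D x₀) :
    ((lresi_Jst D J ν hact x₀ hfix g : lrt_stab D x₀) : G) = J (g : G) := rfl

variable (r : X → G) (hr : ∀ x, D.act (r x) x₀ = x)

/-- the correction `J (r x) · (r (ν x))⁻¹ ∈ Stab(x₀)` -/
def lresi_u (x : X) : lrt_stab D x₀ :=
  ⟨J (r x) * (r (ν x))⁻¹, by
    show D.act (J (r x) * (r (ν x))⁻¹) x₀ = x₀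
    rw [D.act_mul]
    have h1 : D.act (J (r x)) x₀ = ν x := by
      have h := hact (r x) x₀
      rw [hfix, hr] at h
      exact h
    rw [h1]
    have h2 := lrt_act_inv D (r (ν x)) x₀
    rwa [hr] at h2⟩

theorem lresi_u_coe (x : X) :
    ((lresi_u D J ν hact x₀ hfix r hr x : lrt_stab D x₀) : G) = J (r x) * (r (ν x))⁻¹ := rfl

theorem lresi_key (x : X) (g : G) :
    lresi_Jst D J ν hact x₀ hfix (lrt_a D x₀ r hr x g) =
      lresi_u D J ν hact x₀ hfix r hr x * lrt_a D x₀ r hr (ν x) (J g) *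
        (lresi_u D J ν hact x₀ hfix r hr (D.act g x))⁻¹ := by
  apply Subtype.ext
  rw [lresi_Jst_coe, Subgroup.coe_mul, Subgroup.coe_mul, Subgroup.coe_inv, lrt_a_coe, lrt_a_coe,
    lresi_u_coe, lresi_u_coe, hact, map_mul, map_mul, map_inv]
  group

variable [Fintype X]

/-- **the transfer commutes with `J`** -/
theorem lresi_cor_J (φ : Additive (lrt_stab D x₀) →+ A) (g : G) :
    lrt_ev (lrt_cor D x₀ r hr
      (φ.comp (MonoidHom.toAdditive (lresi_Jst D J ν hact x₀ hfix)))) g =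
      lrt_ev (lrt_cor D x₀ r hr φ) (J g) := by
  rw [lrt_cor_ev, lrt_cor_ev]
  have h : ∀ x : X, lrt_ev (φ.comp (MonoidHom.toAdditive (lresi_Jst D J ν hact x₀ hfix)))
      (lrt_a D x₀ r hr x g) =
      lrt_ev φ (lresi_u D J ν hact x₀ hfix r hr x) + lrt_ev φ (lrt_a D x₀ r hr (ν x) (J g)) -
        lrt_ev φ (lresi_u D J ν hact x₀ hfix r hr (D.act g x)) := by
    intro x
    have h1 : lrt_ev (φ.comp (MonoidHom.toAdditive (lresi_Jst D J ν hact x₀ hfix)))
        (lrt_a D x₀ r hr x g) =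
        lrt_ev φ (lresi_Jst D J ν hact x₀ hfix (lrt_a D x₀ r hr x g)) := rfl
    rw [h1, lresi_key, lrt_ev_mul, lrt_ev_mul, lrt_ev_inv, sub_eq_add_neg]
  rw [Finset.sum_congr rfl fun x _ => h x, Finset.sum_sub_distrib, Finset.sum_add_distrib]
  have h2 : ∑ x : X, lrt_ev φ (lresi_u D J ν hact x₀ hfix r hr (D.act g x)) =
      ∑ x : X, lrt_ev φ (lresi_u D J ν hact x₀ hfix r hr x) :=
    Equiv.sum_comp (lrt_perm D g) fun x => lrt_ev φ (lresi_u D J ν hact x₀ hfix r hr x)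
  have h3 : ∑ x : X, lrt_ev φ (lrt_a D x₀ r hr (ν x) (J g)) =
      ∑ x : X, lrt_ev φ (lrt_a D x₀ r hr x (J g)) :=
    Equiv.sum_comp ν fun x => lrt_ev φ (lrt_a D x₀ r hr x (J g))
  rw [h2, h3]
  abel

end abs

/-! ### Concrete part: `Γ₀(N)`, `Γ₀(Nq)` -/

variable {N : ℕ} {q : ℕ} [Fact q.Prime]

theorem lresi_hact (hqN : ¬ q ∣ N) (g : Gamma0 N) (x : OnePoint (ZMod q)) :
    (lrm_data hqN).act (jConjGamma0 N g) (t2i_negPerm x) = t2i_negPerm ((lrm_data hqN).act g x) :=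
  t2i_act_jConj (g : SL(2, ℤ)) x

theorem lresi_fix_infty : t2i_negPerm (∞ : OnePoint (ZMod q)) = ∞ := rfl

theorem lresi_fix_zero :
    t2i_negPerm (((0 : ZMod q)) : OnePoint (ZMod q)) = ((0 : ZMod q) : OnePoint (ZMod q)) := by
  show t2i_neg (((0 : ZMod q)) : OnePoint (ZMod q)) = _
  rw [t2i_neg_coe, neg_zero]

theorem lresi_u_zero : t2i_u (((0 : ZMod q)) : OnePoint (ZMod q)) = 1 := by
  show t2i_uMat (t2i_e (0 : ZMod q)) = 1
  rw [t2i_e, if_pos rfl]
  apply Subtype.ext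
  rw [t2i_uMat_val]
  ext i j
  fin_cases i <;> fin_cases j <;> simp

theorem lresi_u_infty : t2i_u (∞ : OnePoint (ZMod q)) = 1 := rfl

/-- `c_∞(JγJ) = J c_∞(γ) J` on `Stab(∞)` -/
theorem lresi_coc_infty (hqN : ¬ q ∣ N) (γ : Gamma0 N)
    (hγ : t2c_act (γ : SL(2, ℤ)) (∞ : OnePoint (ZMod q)) = ∞) :
    t2c_coc hqN ∞ (jConjGamma0 N γ) = jConjGamma0 N (t2c_coc hqN ∞ γ) := by
  apply Subtype.ext
  have h := t2i_coc_jConj hqN (∞ : OnePoint (ZMod q)) γ
  rw [t2i_neg_infty, hγ, lresi_u_infty, inv_one, one_mul, mul_one] at h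
  exact h

/-- `c_0(JγJ) = J c_0(γ) J` on `Stab(0)` -/
theorem lresi_coc_zero (hqN : ¬ q ∣ N) (γ : Gamma0 N)
    (hγ : t2c_act (γ : SL(2, ℤ)) (((0 : ZMod q)) : OnePoint (ZMod q)) =
      ((0 : ZMod q) : OnePoint (ZMod q))) :
    t2c_coc hqN ((0 : ZMod q) : OnePoint (ZMod q)) (jConjGamma0 N γ) =
      jConjGamma0 N (t2c_coc hqN ((0 : ZMod q) : OnePoint (ZMod q)) γ) := by
  apply Subtype.ext
  have h := t2i_coc_jConj hqN (((0 : ZMod q)) : OnePoint (ZMod q)) γ
  rw [t2i_neg_coe, neg_zero, hγ, lresi_u_zero, inv_one, one_mul, mul_one] at h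
  exact h

variable {A : Type*} [AddCommGroup A] (R : Type*) [Semiring R] [Module R A]

theorem lresi_charInvolution_ev (M : ℕ) (ψ : Additive (Gamma0 M) →+ A) (g : Gamma0 M) :
    lrt_ev (charInvolution M R A ψ) g = lrt_ev ψ (jConjGamma0 M g) := rfl

omit [Fact q.Prime] in
/-- `A^*` commutes with the involution -/
theorem lresi_resA (χ : Additive (Gamma0 N) →+ A) :
    charInvolution (N * q) R A (lrm_resA N q χ) = lrm_resA N q (charInvolution N R A χ) := by
  refine lrt_ext fun g => ?_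
  rfl

/-- `B^*` commutes with the involution -/
theorem lresi_resB (hqN : ¬ q ∣ N) (χ : Additive (Gamma0 N) →+ A) :
    charInvolution (N * q) R A (lrm_resB hqN χ) = lrm_resB hqN (charInvolution N R A χ) := by
  refine lrt_ext fun g => ?_
  show lrt_ev χ (lrm_beta hqN (jConjGamma0 (N * q) g)) = lrt_ev χ (jConjGamma0 N (lrm_beta hqN g))
  congr 1
  have hg : t2c_act ((lrm_incl N q g : Gamma0 N) : SL(2, ℤ)) (∞ : OnePoint (ZMod q)) = ∞ :=
    (lrm_act_infty _).mpr (lrm_dvd_q N g)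
  exact lresi_coc_infty hqN (lrm_incl N q g) hg

/-- `A_*` commutes with the involution -/
theorem lresi_corA (hqN : ¬ q ∣ N) (φ : Additive (Gamma0 (N * q)) →+ A) :
    charInvolution N R A (lrm_corA hqN φ) = lrm_corA hqN (charInvolution (N * q) R A φ) := by
  refine lrt_ext fun g => ?_
  rw [lresi_charInvolution_ev]
  show lrt_ev (lrt_cor (lrm_data hqN) ∞ (lrm_rInf hqN) (lrm_rInf_spec hqN)
      (lrm_pull (lrm_gamInf hqN) φ)) (jConjGamma0 N g) =
    lrt_ev (lrt_cor (lrm_data hqN) ∞ (lrm_rInf hqN) (lrm_rInf_spec hqN)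
      (lrm_pull (lrm_gamInf hqN) (charInvolution (N * q) R A φ))) g
  rw [← lresi_cor_J (lrm_data hqN) (jConjGamma0 N) t2i_negPerm (lresi_hact hqN) ∞
    lresi_fix_infty]
  congr 2

/-- `B_*` commutes with the involution -/
theorem lresi_corB (hqN : ¬ q ∣ N) (φ : Additive (Gamma0 (N * q)) →+ A) :
    charInvolution N R A (lrm_corB hqN φ) = lrm_corB hqN (charInvolution (N * q) R A φ) := by
  refine lrt_ext fun g => ?_
  rw [lresi_charInvolution_ev]
  show lrt_ev (lrt_cor (lrm_data hqN) ((0 : ZMod q) : OnePoint (ZMod q)) (lrm_rZero hqN)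
      (lrm_rZero_spec hqN) (lrm_pull (lrm_gamZero hqN) φ)) (jConjGamma0 N g) =
    lrt_ev (lrt_cor (lrm_data hqN) ((0 : ZMod q) : OnePoint (ZMod q)) (lrm_rZero hqN)
      (lrm_rZero_spec hqN) (lrm_pull (lrm_gamZero hqN) (charInvolution (N * q) R A φ))) g
  rw [← lresi_cor_J (lrm_data hqN) (jConjGamma0 N) t2i_negPerm (lresi_hact hqN)
    ((0 : ZMod q) : OnePoint (ZMod q)) lresi_fix_zero]
  congr 2
  refine lrt_ext fun h => ?_
  show lrt_ev φ (lrm_gamZero hqN (lresi_Jst (lrm_data hqN) (jConjGamma0 N) t2i_negPerm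
      (lresi_hact hqN) _ lresi_fix_zero h)) = lrt_ev φ (jConjGamma0 (N * q) (lrm_gamZero hqN h))
  congr 1
  apply Subtype.ext
  show ((t2c_coc hqN ((0 : ZMod q) : OnePoint (ZMod q)) (jConjGamma0 N (h : Gamma0 N)) : Gamma0 N) :
      SL(2, ℤ)) = jConjSL ((t2c_coc hqN ((0 : ZMod q) : OnePoint (ZMod q)) (h : Gamma0 N) :
        Gamma0 N) : SL(2, ℤ))
  rw [lresi_coc_zero hqN (h : Gamma0 N) h.2]
  rfl

end Fermat.Agent.LR
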