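/-
LR / node [ES], part (ii): the period map intertwines the trace maps of cusp forms
(`lrnew_trALin`, `lrnew_trBLin` of `LR/NEW/Trace.lean`) with the transfers `A_* = lrm_corA`,
`B_* = lrm_corB` of `LR/MTX/Level.lean`:

  `periodMap N (trA g) = lrm_corA hqN (periodMap (N q) g)`,
  `periodMap N (trB g) = lrm_corB hqN (periodMap (N q) g)`.

Proof (transfer formula on primitives, as in `JT3/T2/Period.lean`): if `F` is a primitive of `g`
then `z ↦ ∑ₓ F (Aₓ z)` is a primitive of `∑ₓ g ∣[2] Aₓ` (`Aₓ = rₓ` resp. `diag(1, q) rₓ`), and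
`Aₓ γ = c · A_{x ⋆ γ}` with `c ∈ Γ₀(N q)` the transfer cocycle, so
`F (Aₓ γ z) - F (Aₓ z) = periodMap g (c) + (F (A_{x ⋆ γ} z) - F (Aₓ z))`; the last terms cancel in the
sum over `x`.
Prefix `lres_`.
-/
import Mathlib
import Fermat.Agent.S21.Primitive
import Fermat.Agent.LR.NEW.Trace

set_option autoImplicit false
set_option linter.unusedSectionVars false

noncomputable section

open UpperHalfPlane hiding I
open Complex Filter Function CongruenceSubgroup ModularCurve ModularCurve.Period ModularForm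
open Matrix.SpecialLinearGroup
open scoped Real Manifold Topology MatrixGroups ModularForm OnePoint
open Fermat.Agent.S21 Fermat.Agent.JT3
open P2MW.S_ModularForm_heckeT_slash_eq_self_of_mem_Gamma0.ModularForm.HeckeSlashInvariance

namespace Fermat.Agent.LR

/-! ### Generalities on primitives -/

/-- the derivative of `z ↦ F (A z)` is `f ∣[2] A` when `F' = f` and `det A > 0` -/
theorem lres_hasDerivAt_comp_smul {F f : ℍ → ℂ}
    (hF : ∀ τ : ℍ, HasDerivAt (F ∘ ofComplex) (f τ) τ) {A : GL (Fin 2) ℝ} (hA : 0 < A.val.det)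
    (τ : ℍ) :
    HasDerivAt ((fun z : ℍ => F (A • z)) ∘ ofComplex) ((f ∣[(2 : ℤ)] A) τ) τ := by
  have h_smul : HasDerivAt (fun w ↦ ↑(A • ofComplex w) : ℂ → ℂ)
      ((A.val.det : ℂ) / denom A τ ^ 2) ↑τ := (hasStrictDerivAt_smul hA τ).hasDerivAt
  have h_F : HasDerivAt (F ∘ ofComplex) (f (A • τ)) ↑(A • ofComplex (τ : ℂ)) := by
    rw [ofComplex_apply]
    exact hF _
  have hcomp := h_F.comp (τ : ℂ) h_smul
  have hdet : A.det.val = A.val.det := Matrix.GeneralLinearGroup.val_det_apply A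
  have hσ : σ A = .refl ℝ ℂ := by rw [σ, if_pos (by rw [hdet]; exact hA)]
  have hval : (f ∣[(2 : ℤ)] A) τ = f (A • τ) * ((A.val.det : ℂ) / denom A τ ^ 2) := by
    rw [ModularForm.slash_apply, hσ, hdet, abs_of_pos hA]
    have hz := denom_ne_zero A τ
    simp only [ContinuousAlgEquiv.refl_apply, Int.reduceSub, zpow_one, Int.reduceNeg]
    rw [zpow_neg, zpow_ofNat]
    field_simp
  rw [hval]
  refine hcomp.congr_of_eventuallyEq (Eventually.of_forall fun w => ?_)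
  simp only [Function.comp_apply, ofComplex_apply]

theorem lres_det_mapGL (γ : SL(2, ℤ)) : (mapGL ℝ γ : GL (Fin 2) ℝ).val.det = 1 := by
  rw [← Matrix.GeneralLinearGroup.val_det_apply]
  simp

theorem lres_det_pos_mapGL (γ : SL(2, ℤ)) : 0 < (mapGL ℝ γ : GL (Fin 2) ℝ).val.det := by
  rw [lres_det_mapGL]
  exact one_pos

theorem lres_det_pos_mul {A : GL (Fin 2) ℝ} (hA : 0 < A.val.det) (γ : SL(2, ℤ)) :
    0 < (A * mapGL ℝ γ : GL (Fin 2) ℝ).val.det := by
  rw [Units.val_mul, Matrix.det_mul, lres_det_mapGL, mul_one]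
  exact hA

variable {N : ℕ} {q : ℕ} [Fact q.Prime]

/-- the period map computed from ANY primitive -/
theorem lres_periodMap_of_prim [NeZero N] (G : CuspForm (Gamma0 N) 2) {H : ℍ → ℂ}
    (hH : ∀ τ : ℍ, HasDerivAt (H ∘ ofComplex) (G τ) τ) (γ : Gamma0 N) (z : ℍ) :
    periodMap N G (Additive.ofMul γ) = H (mapGL ℝ (γ : SL(2, ℤ)) • z) - H z := by
  have hD : ∀ τ : ℍ, HasDerivAt ((H - s21_prim G) ∘ ofComplex) 0 τ := by
    intro τ
    have := (hH τ).sub (s21_prim_hasDerivAt G τ)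
    rw [sub_self] at this
    exact this
  have hc := s21_const_of_hasDerivAt_zero hD (mapGL ℝ (γ : SL(2, ℤ)) • z) z
  rw [s21_periodMap_apply G γ z]
  simp only [Pi.sub_apply] at hc
  change s21_prim G (mapGL ℝ (γ : SL(2, ℤ)) • z) - s21_prim G z = _
  linear_combination -hc

/-- the primitive is shifted by the period under `Γ₀(M)` -/
theorem lres_prim_shift {M : ℕ} [NeZero M] (g : CuspForm (Gamma0 M) 2) (a : Gamma0 M) (w : ℍ) :
    s21_prim g (mapGL ℝ (a : SL(2, ℤ)) • w) =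
      s21_prim g w + periodMap M g (Additive.ofMul a) := by
  rw [s21_periodMap_apply g a w]
  change s21_prim g (mapGL ℝ (a : SL(2, ℤ)) • w) = s21_prim g w +
    (s21_prim g (mapGL ℝ (a : SL(2, ℤ)) • w) - s21_prim g w)
  ring

theorem lres_neZero [NeZero N] : NeZero (N * q) :=
  ⟨Nat.mul_ne_zero (NeZero.ne N) (Fact.out : q.Prime).ne_zero⟩

/-! ### The trace along the inclusion -/

/-- **`periodMap ∘ trA = A_* ∘ periodMap`** -/
theorem lres_periodMap_trA [NeZero N] (hqN : ¬ q ∣ N) (g : CuspForm (Gamma0 (N * q)) 2) :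
    periodMap N (lrnew_trALin hqN g) = lrm_corA hqN (periodMap (N * q) g) := by
  have : NeZero (N * q) := lres_neZero
  refine lrt_ext fun γ => ?_
  have hF := s21_prim_hasDerivAt g
  have hH : ∀ τ : ℍ, HasDerivAt
      ((fun z : ℍ => ∑ x : OnePoint (ZMod q),
        s21_prim g (mapGL ℝ ((lrm_rInf hqN x : Gamma0 N) : SL(2, ℤ)) • z)) ∘ ofComplex)
      ((lrnew_trALin hqN g) τ) τ := by
    intro τ
    have h := HasDerivAt.fun_sum (u := (Finset.univ : Finset (OnePoint (ZMod q))))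
      (A := fun x => (fun z : ℍ =>
        s21_prim g (mapGL ℝ ((lrm_rInf hqN x : Gamma0 N) : SL(2, ℤ)) • z)) ∘ ofComplex)
      (A' := fun x => ((g : ℍ → ℂ) ∣[(2 : ℤ)]
        (mapGL ℝ ((lrm_rInf hqN x : Gamma0 N) : SL(2, ℤ)))) τ) (x := (τ : ℂ))
      fun x _ => lres_hasDerivAt_comp_smul hF (lres_det_pos_mapGL _) τ
    have hval : (lrnew_trALin hqN g) τ = ∑ x : OnePoint (ZMod q), ((g : ℍ → ℂ) ∣[(2 : ℤ)]
        (mapGL ℝ ((lrm_rInf hqN x : Gamma0 N) : SL(2, ℤ)))) τ := by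
      show lrnew_trA hqN (⇑g) τ = _
      rw [lrnew_trA, Finset.sum_apply]
    rw [hval]
    refine h.congr_of_eventuallyEq (Eventually.of_forall fun w => ?_)
    simp
  show periodMap N (lrnew_trALin hqN g) (Additive.ofMul γ) = _
  rw [lres_periodMap_of_prim _ hH γ UpperHalfPlane.I]
  show _ = lrt_ev (lrt_cor (lrm_data hqN) ∞ (lrm_rInf hqN) (lrm_rInf_spec hqN)
    (lrm_pull (lrm_gamInf hqN) (periodMap (N * q) g))) γ
  rw [lrt_cor_ev, ← Finset.sum_sub_distrib]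
  have hterm : ∀ x : OnePoint (ZMod q),
      s21_prim g (mapGL ℝ ((lrm_rInf hqN x : Gamma0 N) : SL(2, ℤ)) •
          (mapGL ℝ (γ : SL(2, ℤ)) • UpperHalfPlane.I)) -
        s21_prim g (mapGL ℝ ((lrm_rInf hqN x : Gamma0 N) : SL(2, ℤ)) • UpperHalfPlane.I) =
      lrt_ev (lrm_pull (lrm_gamInf hqN) (periodMap (N * q) g))
          (lrt_a (lrm_data hqN) ∞ (lrm_rInf hqN) (lrm_rInf_spec hqN) x γ) +
        (s21_prim g (mapGL ℝ ((lrm_rInf hqN (lrt_perm (lrm_data hqN) γ x) : Gamma0 N) : SL(2, ℤ)) •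
            UpperHalfPlane.I) -
          s21_prim g (mapGL ℝ ((lrm_rInf hqN x : Gamma0 N) : SL(2, ℤ)) • UpperHalfPlane.I)) := by
    intro x
    have hprod : mapGL ℝ ((lrm_rInf hqN x : Gamma0 N) : SL(2, ℤ)) * mapGL ℝ (γ : SL(2, ℤ)) =
        mapGL ℝ ((lrm_gamInf hqN (lrt_a (lrm_data hqN) ∞ (lrm_rInf hqN) (lrm_rInf_spec hqN) x γ) :
          Gamma0 (N * q)) : SL(2, ℤ)) *
        mapGL ℝ ((lrm_rInf hqN (lrt_perm (lrm_data hqN) γ x) : Gamma0 N) : SL(2, ℤ)) := by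
      rw [← map_mul, ← map_mul]
      congr 1
      show _ = ((lrm_rInf hqN x * γ * (lrm_rInf hqN ((lrm_data hqN).act γ x))⁻¹ : Gamma0 N) :
        SL(2, ℤ)) * ((lrm_rInf hqN ((lrm_data hqN).act γ x) : Gamma0 N) : SL(2, ℤ))
      rw [← Subgroup.coe_mul, ← Subgroup.coe_mul, inv_mul_cancel_right]
    rw [← mul_smul, hprod, mul_smul, lres_prim_shift]
    show _ = periodMap (N * q) g (Additive.ofMul (lrm_gamInf hqN
      (lrt_a (lrm_data hqN) ∞ (lrm_rInf hqN) (lrm_rInf_spec hqN) x γ))) + _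
    ring
  rw [Finset.sum_congr rfl fun x _ => hterm x, Finset.sum_add_distrib, Finset.sum_sub_distrib,
    Equiv.sum_comp (lrt_perm (lrm_data hqN) γ)
      fun x => s21_prim g (mapGL ℝ ((lrm_rInf hqN x : Gamma0 N) : SL(2, ℤ)) • UpperHalfPlane.I),
    sub_self, add_zero]

/-! ### The trace along `β` -/

theorem lres_det_pos_heckeMatrix : 0 < (heckeMatrix q 0 : GL (Fin 2) ℝ).val.det := by
  rw [← Matrix.GeneralLinearGroup.val_det_apply]
  exact det_heckeMatrix_pos q 0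

/-- **`periodMap ∘ trB = B_* ∘ periodMap`** -/
theorem lres_periodMap_trB [NeZero N] (hqN : ¬ q ∣ N) (g : CuspForm (Gamma0 (N * q)) 2) :
    periodMap N (lrnew_trBLin hqN g) = lrm_corB hqN (periodMap (N * q) g) := by
  have : NeZero (N * q) := lres_neZero
  refine lrt_ext fun γ => ?_
  have hF := s21_prim_hasDerivAt g
  have hH : ∀ τ : ℍ, HasDerivAt
      ((fun z : ℍ => ∑ x : OnePoint (ZMod q),
        s21_prim g ((heckeMatrix q 0 * mapGL ℝ ((lrm_rZero hqN x : Gamma0 N) : SL(2, ℤ))) • z)) ∘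
          ofComplex)
      ((lrnew_trBLin hqN g) τ) τ := by
    intro τ
    have h := HasDerivAt.fun_sum (u := (Finset.univ : Finset (OnePoint (ZMod q))))
      (A := fun x => (fun z : ℍ =>
        s21_prim g ((heckeMatrix q 0 * mapGL ℝ ((lrm_rZero hqN x : Gamma0 N) : SL(2, ℤ))) • z)) ∘
          ofComplex)
      (A' := fun x => ((g : ℍ → ℂ) ∣[(2 : ℤ)]
        (heckeMatrix q 0 * mapGL ℝ ((lrm_rZero hqN x : Gamma0 N) : SL(2, ℤ)))) τ) (x := (τ : ℂ))
      fun x _ => lres_hasDerivAt_comp_smul hF (lres_det_pos_mul lres_det_pos_heckeMatrix _) τ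
    have hval : (lrnew_trBLin hqN g) τ = ∑ x : OnePoint (ZMod q), ((g : ℍ → ℂ) ∣[(2 : ℤ)]
        (heckeMatrix q 0 * mapGL ℝ ((lrm_rZero hqN x : Gamma0 N) : SL(2, ℤ)))) τ := by
      show lrnew_trB hqN (⇑g) τ = _
      rw [lrnew_trB, Finset.sum_apply]
      refine Finset.sum_congr rfl fun x _ => ?_
      rw [SlashAction.slash_mul]
    rw [hval]
    refine h.congr_of_eventuallyEq (Eventually.of_forall fun w => ?_)
    simp
  show periodMap N (lrnew_trBLin hqN g) (Additive.ofMul γ) = _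
  rw [lres_periodMap_of_prim _ hH γ UpperHalfPlane.I]
  show _ = lrt_ev (lrt_cor (lrm_data hqN) ((0 : ZMod q) : OnePoint (ZMod q)) (lrm_rZero hqN)
    (lrm_rZero_spec hqN) (lrm_pull (lrm_gamZero hqN) (periodMap (N * q) g))) γ
  rw [lrt_cor_ev, ← Finset.sum_sub_distrib]
  have hterm : ∀ x : OnePoint (ZMod q),
      s21_prim g ((heckeMatrix q 0 * mapGL ℝ ((lrm_rZero hqN x : Gamma0 N) : SL(2, ℤ))) •
          (mapGL ℝ (γ : SL(2, ℤ)) • UpperHalfPlane.I)) -
        s21_prim g ((heckeMatrix q 0 * mapGL ℝ ((lrm_rZero hqN x : Gamma0 N) : SL(2, ℤ))) •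
          UpperHalfPlane.I) =
      lrt_ev (lrm_pull (lrm_gamZero hqN) (periodMap (N * q) g))
          (lrt_a (lrm_data hqN) ((0 : ZMod q) : OnePoint (ZMod q)) (lrm_rZero hqN)
            (lrm_rZero_spec hqN) x γ) +
        (s21_prim g ((heckeMatrix q 0 *
            mapGL ℝ ((lrm_rZero hqN (lrt_perm (lrm_data hqN) γ x) : Gamma0 N) : SL(2, ℤ))) •
              UpperHalfPlane.I) -
          s21_prim g ((heckeMatrix q 0 * mapGL ℝ ((lrm_rZero hqN x : Gamma0 N) : SL(2, ℤ))) •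
            UpperHalfPlane.I)) := by
    intro x
    set a := lrt_a (lrm_data hqN) ((0 : ZMod q) : OnePoint (ZMod q)) (lrm_rZero hqN)
      (lrm_rZero_spec hqN) x γ with ha
    have h1 : mapGL ℝ ((lrm_rZero hqN x : Gamma0 N) : SL(2, ℤ)) * mapGL ℝ (γ : SL(2, ℤ)) =
        mapGL ℝ (((a : Gamma0 N)) : SL(2, ℤ)) *
        mapGL ℝ ((lrm_rZero hqN (lrt_perm (lrm_data hqN) γ x) : Gamma0 N) : SL(2, ℤ)) := by
      rw [← map_mul, ← map_mul]
      congr 1
      show _ = ((lrm_rZero hqN x * γ * (lrm_rZero hqN ((lrm_data hqN).act γ x))⁻¹ : Gamma0 N) :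
        SL(2, ℤ)) * ((lrm_rZero hqN ((lrm_data hqN).act γ x) : Gamma0 N) : SL(2, ℤ))
      rw [← Subgroup.coe_mul, ← Subgroup.coe_mul, inv_mul_cancel_right]
    have h2 : heckeMatrix q 0 * mapGL ℝ (((a : Gamma0 N)) : SL(2, ℤ)) =
        mapGL ℝ ((lrm_gamZero hqN a : Gamma0 (N * q)) : SL(2, ℤ)) * heckeMatrix q 0 := by
      have h := t2c_coc_spec hqN ((0 : ZMod q) : OnePoint (ZMod q)) (a : Gamma0 N)
      rw [(show t2c_act (((a : Gamma0 N)) : SL(2, ℤ)) ((0 : ZMod q) : OnePoint (ZMod q)) = _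
        from a.2), lrm_heckeRep_zero] at h
      rw [h, lrm_gamZero_coe]
    have hprod : heckeMatrix q 0 * mapGL ℝ ((lrm_rZero hqN x : Gamma0 N) : SL(2, ℤ)) *
        mapGL ℝ (γ : SL(2, ℤ)) =
        mapGL ℝ ((lrm_gamZero hqN a : Gamma0 (N * q)) : SL(2, ℤ)) * (heckeMatrix q 0 *
          mapGL ℝ ((lrm_rZero hqN (lrt_perm (lrm_data hqN) γ x) : Gamma0 N) : SL(2, ℤ))) := by
      rw [mul_assoc, h1, ← mul_assoc, h2, mul_assoc]
    rw [← mul_smul, hprod, mul_smul, lres_prim_shift]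
    show _ = periodMap (N * q) g (Additive.ofMul (lrm_gamZero hqN a)) + _
    ring
  rw [Finset.sum_congr rfl fun x _ => hterm x, Finset.sum_add_distrib, Finset.sum_sub_distrib,
    Equiv.sum_comp (lrt_perm (lrm_data hqN) γ)
      fun x => s21_prim g ((heckeMatrix q 0 * mapGL ℝ ((lrm_rZero hqN x : Gamma0 N) : SL(2, ℤ))) •
        UpperHalfPlane.I),
    sub_self, add_zero]

end Fermat.Agent.LR
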