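/-
LR / node [ES], part (iii): from an eigenvector in `ker(i†) ⊗ ℂ ⊆ Hom(H(Nq), ℂ)` to a `q`-new cusp
form.

* `lres_corA_pair`, `lres_corB_pair` : `A_*`, `B_*` of a period pair is the period pair of the traces;
* `lres_new`  : if `Θ : H(Nq) → ℂ` is the period pair of `(g₁, g₂)` and `Θ ∘ Aᵗ = 0 = Θ ∘ Bᵗ`, then
  `trA gᵢ = 0 = trB gᵢ` (function level, the hypotheses of `lrnew_main`);
* `lres_main` : a nonzero `Θ` with `Θ ∘ Aᵗ = 0 = Θ ∘ Bᵗ` which is an eigenvector of the `T_H ℓ`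
  (`ℓ ∤ Nq` prime, `ℓ ∉ S`) with eigenvalues `θ ℓ` gives a nonzero `g₀ ∈ S₂(Γ₀(Nq))` with
  `trA g₀ = 0 = trB g₀` and `T_ℓ g₀ = θ ℓ • g₀`.  (No complex conjugation: `periodHomPair` is
  `ℂ`-linear.)
Prefix `lres_`.
-/
import Mathlib
import Fermat.Agent.JT3.T2.Faithful
import Fermat.Agent.LR.MTX.Homology
import Fermat.Agent.LR.ES.Invol
import Fermat.Agent.LR.ES.Trace

set_option autoImplicit false
set_option linter.unusedSectionVars false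

noncomputable section

open CongruenceSubgroup ModularCurve ModularCurve.Period
open Fermat.Agent.S21 Fermat.Agent.JT3
open scoped MatrixGroups

namespace Fermat.Agent.LR

variable {N : ℕ} {q : ℕ} [Fact q.Prime] [NeZero N]

/-- `A_*` of a period pair is the period pair of the traces -/
theorem lres_corA_pair (hqN : ¬ q ∣ N) (g₁ g₂ : CuspForm (Gamma0 (N * q)) 2) :
    lrm_corA hqN (periodHomPair (N * q) (g₁, g₂)) =
      periodHomPair N (lrnew_trALin hqN g₁, lrnew_trALin hqN g₂) := by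
  have : NeZero (N * q) := lres_neZero
  rw [s21_periodHomPair_apply g₁ g₂, map_add, map_add, map_sub,
    s21_periodHomPair_apply (lrnew_trALin hqN g₁) (lrnew_trALin hqN g₂),
    lres_periodMap_trA hqN g₁, lres_periodMap_trA hqN g₂, lresi_corA ℂ hqN, lresi_corA ℂ hqN]

/-- `B_*` of a period pair is the period pair of the traces -/
theorem lres_corB_pair (hqN : ¬ q ∣ N) (g₁ g₂ : CuspForm (Gamma0 (N * q)) 2) :
    lrm_corB hqN (periodHomPair (N * q) (g₁, g₂)) =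
      periodHomPair N (lrnew_trBLin hqN g₁, lrnew_trBLin hqN g₂) := by
  have : NeZero (N * q) := lres_neZero
  rw [s21_periodHomPair_apply g₁ g₂, map_add, map_add, map_sub,
    s21_periodHomPair_apply (lrnew_trBLin hqN g₁) (lrnew_trBLin hqN g₂),
    lres_periodMap_trB hqN g₁, lres_periodMap_trB hqN g₂, lresi_corB ℂ hqN, lresi_corB ℂ hqN]

theorem lres_pair_eq_zero {f g : CuspForm (Gamma0 N) 2} (h : periodHomPair N (f, g) = 0) :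
    f = 0 ∧ g = 0 := by
  refine t2f_pair_injective (f' := 0) (g' := 0) (h.trans ?_)
  rw [← Prod.zero_eq_mk, map_zero]

/-- **the consumer form for [TOP]**: the components of `Θ ∈ ker(i†) ⊗ ℂ` have vanishing traces -/
theorem lres_new (hqN : ¬ q ∣ N) (Θ : gh_H (N * q) →+ ℂ) (g₁ g₂ : CuspForm (Gamma0 (N * q)) 2)
    (h : Θ.comp (gh_mk (N * q)) = periodHomPair (N * q) (g₁, g₂))
    (hA : Θ.comp (lrh_At hqN) = 0) (hB : Θ.comp (lrh_Bt hqN) = 0) :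
    lrnew_trA hqN ⇑g₁ = 0 ∧ lrnew_trB hqN ⇑g₁ = 0 ∧
      lrnew_trA hqN ⇑g₂ = 0 ∧ lrnew_trB hqN ⇑g₂ = 0 := by
  have hA' : lrm_corA hqN (Θ.comp (gh_mk (N * q))) = 0 := by
    rw [← lrh_pull_At, hA]
    rfl
  have hB' : lrm_corB hqN (Θ.comp (gh_mk (N * q))) = 0 := by
    rw [← lrh_pull_Bt, hB]
    rfl
  rw [h, lres_corA_pair] at hA'
  rw [h, lres_corB_pair] at hB'
  obtain ⟨a1, a2⟩ := lres_pair_eq_zero hA'
  obtain ⟨b1, b2⟩ := lres_pair_eq_zero hB'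
  refine ⟨?_, ?_, ?_, ?_⟩
  · rw [← lrnew_coe_trALin, a1]; rfl
  · rw [← lrnew_coe_trBLin, b1]; rfl
  · rw [← lrnew_coe_trALin, a2]; rfl
  · rw [← lrnew_coe_trBLin, b2]; rfl

/-- **[ES], the one theorem**: an eigenvector in `ker(i†) ⊗ ℂ` gives a `q`-new cusp form with the
same eigenvalues -/
theorem lres_main (hqN : ¬ q ∣ N) (Θ : gh_H (N * q) →+ ℂ) (hne : Θ ≠ 0)
    (hA : Θ.comp (lrh_At hqN) = 0) (hB : Θ.comp (lrh_Bt hqN) = 0) (S : Set ℕ) (θ : ℕ → ℂ)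
    (heig : ∀ ℓ : ℕ, ℓ.Prime → ¬ ℓ ∣ N * q → ℓ ∉ S →
      Θ.comp (t2f_TH (N * q) ℓ).toAddMonoidHom = θ ℓ • Θ) :
    ∃ g₀ : CuspForm (Gamma0 (N * q)) 2, g₀ ≠ 0 ∧ lrnew_trA hqN ⇑g₀ = 0 ∧ lrnew_trB hqN ⇑g₀ = 0 ∧
      ∀ (ℓ : ℕ) (hℓ : ℓ.Prime) (hℓM : ¬ ℓ ∣ N * q), ℓ ∉ S →
        CuspForm.heckeTLin 2 hℓ hℓM g₀ = θ ℓ • g₀ := by
  have : NeZero (N * q) := lres_neZero
  obtain ⟨g₁, g₂, h⟩ := t2f_exists_pair Θ
  obtain ⟨hA1, hB1, hA2, hB2⟩ := lres_new hqN Θ g₁ g₂ h hA hB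
  have heig' : ∀ (ℓ : ℕ) (hℓ : ℓ.Prime) (hℓM : ¬ ℓ ∣ N * q), ℓ ∉ S →
      CuspForm.heckeTLin 2 hℓ hℓM g₁ = θ ℓ • g₁ ∧ CuspForm.heckeTLin 2 hℓ hℓM g₂ = θ ℓ • g₂ := by
    intro ℓ hℓ hℓM hℓS
    have h1 := t2f_compat_TH hℓ hℓM Θ g₁ g₂ h
    rw [heig ℓ hℓ hℓM hℓS] at h1
    have h2 : (θ ℓ • Θ).comp (gh_mk (N * q)) = periodHomPair (N * q) (θ ℓ • g₁, θ ℓ • g₂) := by
      rw [← Prod.smul_mk, map_smul, ← h]
      rfl
    exact t2f_pair_injective (h1.symm.trans h2)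
  by_cases hg₁ : g₁ = 0
  · have hg₂ : g₂ ≠ 0 := by
      intro hg₂
      apply hne
      apply lrh_comp_mk_injective
      rw [h, hg₁, hg₂, ← Prod.zero_eq_mk, map_zero]
      rfl
    exact ⟨g₂, hg₂, hA2, hB2, fun ℓ hℓ hℓM hℓS => (heig' ℓ hℓ hℓM hℓS).2⟩
  · exact ⟨g₁, hg₁, hA1, hB1, fun ℓ hℓ hℓM hℓS => (heig' ℓ hℓ hℓM hℓS).1⟩

end Fermat.Agent.LR
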